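import Fermat.Agent.MacMahonBox.Patterns
import Mathlib.Order.Monotone.Basic
import Mathlib.Data.Fin.Rev

/-!
# Plane partitions in a box as patterns

An `a × c` array with entries at most `b` is the free part of a pattern with top row
`0, …, 0, b, …, b` (`c` zeros, `a` times `b`).
-/

set_option autoImplicit false

noncomputable section

namespace FA.MacMahonBox

open Finset

/-- `c` zeros, then `b`. -/
def boxTop (c b : ℕ) (i : ℕ) : ℕ := if i < c then 0 else b

theorem boxTop_mono (c b : ℕ) (i : ℕ) : boxTop c b i ≤ boxTop c b (i + 1) := by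
  unfold boxTop
  split_ifs <;> omega

/-- The arrays with entries at most `b`, weakly decreasing along rows and columns. -/
def planeSet (a b c : ℕ) : Set (Fin a → Fin c → Fin (b + 1)) :=
  {P | (∀ i, Antitone (P i)) ∧ ∀ j, Antitone fun i => P i j}

variable {a b c : ℕ}

/-- The array continued by `0` below and `b` to the right. -/
def fullValue (P : Fin a → Fin c → Fin (b + 1)) (p i : ℕ) : ℕ :=
  if hp : p < a then (if hi : i < c then (P ⟨p, hp⟩ (Fin.rev ⟨i, hi⟩) : ℕ) else b) else 0

theorem fullValue_le (P : Fin a → Fin c → Fin (b + 1)) (p i : ℕ) : fullValue P p i ≤ b := by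
  unfold fullValue
  split_ifs <;> omega

theorem fullValue_anti {P : Fin a → Fin c → Fin (b + 1)} (hP : P ∈ planeSet a b c) (p i : ℕ) :
    fullValue P (p + 1) i ≤ fullValue P p i := by
  unfold fullValue
  split_ifs with h1 h2 h3 h4 <;> first | omega | skip
  exact hP.2 _ (show (⟨p, by omega⟩ : Fin a) ≤ ⟨p + 1, h1⟩ from Nat.le_succ p)

theorem fullValue_mono {P : Fin a → Fin c → Fin (b + 1)} (hP : P ∈ planeSet a b c) (p i : ℕ) :
    fullValue P p i ≤ fullValue P p (i + 1) := by
  unfold fullValue
  split_ifs with h1 h2 h3 <;> first | omega | skip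
  exact hP.1 _ (Fin.rev_le_rev.2 (show (⟨i, h2⟩ : Fin c) ≤ ⟨i + 1, h3⟩ from Nat.le_succ i))

theorem pattern_up {n : ℕ} {μ : ℕ → ℕ} {T : ℕ → ℕ → ℕ} (hT : T ∈ patternSet n μ) (d : ℕ) :
    ∀ k i, i < k → k + d ≤ n → T k i ≤ T (k + d) (i + d) := by
  induction d with
  | zero => exact fun k i _ _ => le_rfl
  | succ d ih =>
    intro k i hi hk
    exact (ih k i hi (by omega)).trans (hT.2.2 (k + d) (by omega) (i + d) (by omega)).2

theorem pattern_down {n : ℕ} {μ : ℕ → ℕ} {T : ℕ → ℕ → ℕ} (hT : T ∈ patternSet n μ) (d : ℕ) :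
    ∀ k i, i < k → k + d ≤ n → T (k + d) i ≤ T k i := by
  induction d with
  | zero => exact fun k i _ _ => le_rfl
  | succ d ih =>
    intro k i hi hk
    exact (hT.2.2 (k + d) (by omega) i (by omega)).1.trans (ih k i hi (by omega))

/-- The pattern of an array. -/
def toPattern (P : Fin a → Fin c → Fin (b + 1)) (k i : ℕ) : ℕ :=
  if i < k ∧ k ≤ a + c then fullValue P (k - 1 - i) i else 0

theorem toPattern_mem {P : Fin a → Fin c → Fin (b + 1)} (hP : P ∈ planeSet a b c) :
    toPattern P ∈ patternSet (a + c) (boxTop c b) := by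
  refine ⟨fun k i h => if_neg (by omega), fun i hi => ?_, fun k hk i hi => ?_⟩
  · rw [toPattern, if_pos ⟨hi, le_rfl⟩, fullValue, boxTop]
    split_ifs <;> omega
  · rw [toPattern, toPattern, toPattern, if_pos (by omega), if_pos (by omega), if_pos (by omega)]
    refine ⟨?_, ?_⟩
    · rw [show k + 1 - 1 - i = k - 1 - i + 1 by omega]
      exact fullValue_anti hP _ _
    · rw [show k + 1 - 1 - (i + 1) = k - 1 - i by omega]
      exact fullValue_mono hP _ _

theorem pattern_le {T : ℕ → ℕ → ℕ} (hT : T ∈ patternSet (a + c) (boxTop c b)) (k i : ℕ) :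
    T k i ≤ b := by
  by_cases h : i < k ∧ k ≤ a + c
  · refine (pattern_up hT (a + c - k) k i h.1 (by omega)).trans ?_
    rw [Nat.add_sub_cancel' h.2, hT.2.1 _ (by omega), boxTop]
    split_ifs <;> omega
  · rw [hT.1 k i (by omega)]
    exact Nat.zero_le b

/-- The array of a pattern. -/
def ofPattern {T : ℕ → ℕ → ℕ} (hT : T ∈ patternSet (a + c) (boxTop c b)) :
    Fin a → Fin c → Fin (b + 1) := fun p j =>
  ⟨T ((p : ℕ) + 1 + (Fin.rev j : Fin c)) (Fin.rev j : Fin c), Nat.lt_succ_of_le (pattern_le hT _ _)⟩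

theorem ofPattern_mem {T : ℕ → ℕ → ℕ} (hT : T ∈ patternSet (a + c) (boxTop c b)) :
    ofPattern hT ∈ planeSet a b c := by
  refine ⟨fun p j j' hj => ?_, fun j p p' hp => ?_⟩
  · have h1 : ((Fin.rev j' : Fin c) : ℕ) ≤ (Fin.rev j : Fin c) := Fin.rev_le_rev.2 hj
    show T _ _ ≤ T _ _
    obtain ⟨d, hd⟩ := Nat.exists_eq_add_of_le h1
    have hlt := (Fin.rev j).isLt
    have hp' := p.isLt
    rw [hd, ← Nat.add_assoc]
    exact pattern_up hT d _ _ (by omega) (by omega)
  · show T _ _ ≤ T _ _
    obtain ⟨d, hd⟩ := Nat.exists_eq_add_of_le (show (p : ℕ) ≤ p' from hp)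
    have hlt := (Fin.rev j).isLt
    have hp' := p'.isLt
    rw [hd, show (p : ℕ) + d + 1 + (Fin.rev j : Fin c) = (p : ℕ) + 1 + (Fin.rev j : Fin c) + d by
      omega]
    exact pattern_down hT d _ _ (by omega) (by omega)

/-- Plane partitions in a box are patterns. -/
def boxEquiv (a b c : ℕ) : planeSet a b c ≃ patternSet (a + c) (boxTop c b) where
  toFun P := ⟨toPattern P.1, toPattern_mem P.2⟩
  invFun T := ⟨ofPattern T.2, ofPattern_mem T.2⟩
  left_inv P := by
    refine Subtype.ext (funext fun p => funext fun j => Fin.ext ?_)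
    show toPattern P.1 ((p : ℕ) + 1 + (Fin.rev j : Fin c)) (Fin.rev j : Fin c) = (P.1 p j : ℕ)
    have hp := p.isLt
    have hj := (Fin.rev j).isLt
    rw [toPattern, if_pos (by omega), fullValue, dif_pos (by omega), dif_pos hj]
    simp only [show (p : ℕ) + 1 + (Fin.rev j : Fin c) - 1 - (Fin.rev j : Fin c) = p by omega,
      Fin.eta, Fin.rev_rev]
  right_inv T := by
    obtain ⟨T, hT⟩ := T
    refine Subtype.ext (funext fun k => funext fun i => ?_)
    show toPattern (ofPattern hT) k i = T k i
    by_cases h : i < k ∧ k ≤ a + c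
    · rw [toPattern, if_pos h, fullValue]
      split_ifs with hp hi
      · show T _ _ = T k i
        simp only [Fin.rev_rev]
        rw [show k - 1 - i + 1 + i = k by omega]
      · refine le_antisymm ?_ (pattern_le hT k i)
        have h' := pattern_down hT (a + c - k) k i h.1 (by omega)
        rw [Nat.add_sub_cancel' h.2, hT.2.1 i (by omega), boxTop, if_neg hi] at h'
        exact h'
      · have h' := pattern_up hT (a + c - k) k i h.1 (by omega)
        rw [Nat.add_sub_cancel' h.2, hT.2.1 _ (by omega), boxTop, if_pos (by omega)] at h'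
        omega
    · rw [toPattern, if_neg h, hT.1 k i (by omega)]

theorem pairDiff_boxTop (a b c : ℕ) :
    pairDiff (a + c) (fun i => ((boxTop c b i + i : ℕ) : ℤ)) *
        ∏ i ∈ range a, ∏ j ∈ range c, ((i : ℤ) + j + 1) =
      pairDiff (a + c) (fun i => (i : ℤ)) *
        ∏ i ∈ range a, ∏ j ∈ range c, ((b : ℤ) + i + j + 1) := by
  have key : ∀ b : ℕ, pairDiff (a + c) (fun i => ((boxTop c b i + i : ℕ) : ℤ)) =
      pairDiff c (fun i => (i : ℤ)) *
        ((∏ i ∈ range a, ∏ j ∈ range c, ((b : ℤ) + i + j + 1)) *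
          ∏ i ∈ range a, ∏ j ∈ range i, ((i : ℤ) - j)) := fun b => by
    rw [pairDiff, add_comm a c, prod_range_add, ← prod_mul_distrib]
    refine congrArg₂ (· * ·) (prod_congr rfl fun j hj => prod_congr rfl fun i hi => ?_)
      (prod_congr rfl fun t _ => ?_)
    · have := mem_range.1 hj
      have := mem_range.1 hi
      rw [boxTop, boxTop, if_pos (by omega), if_pos (by omega)]
      simp
    · rw [prod_range_add, ← prod_range_reflect (fun j => ((b : ℤ) + t + j + 1)) c]
      refine congrArg₂ (· * ·) (prod_congr rfl fun i hi => ?_) (prod_congr rfl fun i hi => ?_)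
      · have hic := mem_range.1 hi
        rw [boxTop, boxTop, if_neg (by omega), if_pos hic, Nat.sub_sub,
          Nat.cast_sub (show 1 + i ≤ c by omega)]
        push_cast
        ring
      · rw [boxTop, boxTop, if_neg (by omega), if_neg (by omega)]
        push_cast
        ring
  have h0 := key 0
  simp only [Nat.cast_zero, zero_add, show ∀ i, boxTop c 0 i = 0 by simp [boxTop]] at h0
  rw [h0, key b]
  ring

theorem card_planeSet (a b c : ℕ) :
    (Nat.card (planeSet a b c) : ℤ) * ∏ i ∈ range a, ∏ j ∈ range c, ((i : ℤ) + j + 1) =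
      ∏ i ∈ range a, ∏ j ∈ range c, ((b : ℤ) + i + j + 1) := by
  have hne : pairDiff (a + c) (fun i => (i : ℤ)) ≠ 0 := by
    rw [pairDiff_id]
    exact prod_ne_zero_iff.2 fun k _ => by positivity
  refine mul_left_cancel₀ hne ?_
  rw [← pairDiff_boxTop, ← card_patternSet_mul (a + c) fun i _ => boxTop_mono c b i,
    Nat.card_congr (boxEquiv a b c)]
  ring

theorem card_planeSet_triple (a b c : ℕ) :
    Nat.card (planeSet a b c) * (∏ i ∈ range a, ∏ j ∈ range c, ∏ l ∈ range b, (i + j + l + 1)) =
      ∏ i ∈ range a, ∏ j ∈ range c, ∏ l ∈ range b, (i + j + l + 2) := by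
  have htel : ∀ i j : ℕ, (i + j + 1) * ∏ l ∈ range b, (i + j + l + 2) =
      (b + i + j + 1) * ∏ l ∈ range b, (i + j + l + 1) := fun i j => by
    have h1 := prod_range_succ' (fun l => i + j + l + 1) b
    rw [prod_range_succ] at h1
    simp only [add_zero, ← add_assoc] at h1
    rw [mul_comm (i + j + 1), ← h1, mul_comm, show b + i + j + 1 = i + j + b + 1 by ring]
  refine Nat.eq_of_mul_eq_mul_left
    (prod_pos fun i _ => prod_pos fun j _ => Nat.succ_pos (i + j) :
      0 < ∏ i ∈ range a, ∏ j ∈ range c, (i + j + 1)) ?_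
  have h : Nat.card (planeSet a b c) * ∏ i ∈ range a, ∏ j ∈ range c, (i + j + 1) =
      ∏ i ∈ range a, ∏ j ∈ range c, (b + i + j + 1) := by exact_mod_cast card_planeSet a b c
  rw [← mul_assoc, mul_comm _ (Nat.card (planeSet a b c)), h, ← prod_mul_distrib,
    ← prod_mul_distrib]
  refine prod_congr rfl fun i _ => ?_
  rw [← prod_mul_distrib, ← prod_mul_distrib]
  exact prod_congr rfl fun j _ => (htel i j).symm

theorem card_planeSet_two (b c : ℕ) :
    Nat.card (planeSet 2 b c) * (c + 1) = (b + c).choose c * (b + c + 1).choose c := by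
  have hrise : ∀ (m c : ℕ), m.factorial * ∏ j ∈ range c, (m + j + 1) = (m + c).factorial := by
    intro m c
    induction c with
    | zero => simp
    | succ c ih =>
      rw [prod_range_succ, ← mul_assoc, ih, mul_comm, ← add_assoc, Nat.factorial_succ]
  have h : Nat.card (planeSet 2 b c) * ∏ i ∈ range 2, ∏ j ∈ range c, (i + j + 1) =
      ∏ i ∈ range 2, ∏ j ∈ range c, (b + i + j + 1) := by exact_mod_cast card_planeSet 2 b c
  simp only [prod_range_succ, prod_range_zero, one_mul, zero_add, add_zero] at h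
  have e0 := hrise 0 c
  have e1 := hrise 1 c
  have eb := hrise b c
  have eb1 := hrise (b + 1) c
  simp only [Nat.factorial_zero, Nat.factorial_one, one_mul, zero_add] at e0 e1
  rw [e0, e1, show 1 + c = c + 1 by omega, Nat.factorial_succ] at h
  have h1 := Nat.choose_mul_factorial_mul_factorial (show c ≤ b + c by omega)
  have h2 := Nat.choose_mul_factorial_mul_factorial (show c ≤ b + c + 1 by omega)
  rw [Nat.add_sub_cancel] at h1
  rw [show b + c + 1 - c = b + 1 by omega] at h2
  refine Nat.eq_of_mul_eq_mul_right (show 0 < c.factorial * c.factorial *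
    (b.factorial * (b + 1).factorial) by positivity) ?_
  calc Nat.card (planeSet 2 b c) * (c + 1) *
        (c.factorial * c.factorial * (b.factorial * (b + 1).factorial))
      = Nat.card (planeSet 2 b c) * (c.factorial * ((c + 1) * c.factorial)) *
          (b.factorial * (b + 1).factorial) := by ring
    _ = (b + c).factorial * (b + 1 + c).factorial := by
        rw [h, ← eb, ← eb1]; ring
    _ = _ := by rw [← h1, show b + 1 + c = b + c + 1 by omega, ← h2]; ring

end FA.MacMahonBox
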