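import Mathlib.LinearAlgebra.Vandermonde
import Mathlib.Data.Fintype.BigOperators
import Mathlib.SetTheory.Cardinal.Finite
import Mathlib.Algebra.BigOperators.Module
import Mathlib.Tactic

/-!
# Patterns of Gelfand and Tsetlin

Interlacing rows turn the determinant of the `C (x i, j)` into the same determinant one size up.
-/

set_option autoImplicit false

noncomputable section

namespace FA.MacMahonBox

open Finset Matrix

/-- The triangular arrays with top row `μ`, each row interlacing the next. -/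
def patternSet (n : ℕ) (μ : ℕ → ℕ) : Set (ℕ → ℕ → ℕ) :=
  {T | (∀ k i, (n < k ∨ k ≤ i) → T k i = 0) ∧ (∀ i < n, T n i = μ i) ∧
    ∀ k < n, ∀ i < k, T (k + 1) i ≤ T k i ∧ T k i ≤ T (k + 1) (i + 1)}

/-- A row as a function on `ℕ`. -/
def extendRow {n : ℕ} (ν : Fin n → ℕ) (i : ℕ) : ℕ := if h : i < n then ν ⟨i, h⟩ else 0

theorem extendRow_apply {n : ℕ} (ν : Fin n → ℕ) {i : ℕ} (h : i < n) :
    extendRow ν i = ν ⟨i, h⟩ := dif_pos h

/-- The rows interlacing `μ`. -/
def nextRows (n : ℕ) (μ : ℕ → ℕ) : Finset (Fin n → ℕ) :=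
  Fintype.piFinset fun i : Fin n => Icc (μ i) (μ (i + 1))

theorem mem_nextRows {n : ℕ} {μ : ℕ → ℕ} {ν : Fin n → ℕ} :
    ν ∈ nextRows n μ ↔ ∀ i : Fin n, μ i ≤ ν i ∧ ν i ≤ μ (i + 1) := by
  simp [nextRows, Fintype.mem_piFinset]

/-- Removing the top row. -/
def patternEquiv (n : ℕ) (μ : ℕ → ℕ) :
    patternSet (n + 1) μ ≃ Σ ν : nextRows n μ, patternSet n (extendRow ν.1) where
  toFun T := ⟨⟨fun i => T.1 n i, mem_nextRows.2 fun i => by
      have h := T.2.2.2 n (Nat.lt_succ_self n) i i.isLt
      rw [T.2.2.1 i (by omega), T.2.2.1 (i + 1) (by omega)] at h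
      exact h⟩,
    ⟨fun k i => if k ≤ n then T.1 k i else 0, fun k i h => by
      beta_reduce
      split_ifs with hk
      · exact T.2.1 k i (Or.inr (by omega))
      · rfl, fun i hi => by beta_reduce; rw [if_pos le_rfl, extendRow_apply _ hi],
      fun k hk i hi => by
      beta_reduce
      simp only [if_pos hk.le, if_pos (show k + 1 ≤ n from hk)]
      exact T.2.2.2 k (by omega) i hi⟩⟩
  invFun p := ⟨fun k i => if k = n + 1 then (if i < n + 1 then μ i else 0) else p.2.1 k i,
    fun k i h => by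
      beta_reduce
      split_ifs with hk hi
      · omega
      · rfl
      · exact p.2.2.1 k i (by omega), fun i hi => by beta_reduce; rw [if_pos rfl, if_pos hi],
    fun k hk i hi => by
      beta_reduce
      rw [if_neg (show k ≠ n + 1 by omega)]
      rcases eq_or_lt_of_le (Nat.le_of_lt_succ hk) with rfl | hk'
      · rw [if_pos rfl, if_pos rfl, if_pos (by omega), if_pos (by omega), p.2.2.2.1 i hi,
          extendRow_apply _ hi]
        exact mem_nextRows.1 p.1.2 ⟨i, hi⟩
      · rw [if_neg (by omega), if_neg (by omega)]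
        exact p.2.2.2.2 k hk' i hi⟩
  left_inv T := by
    refine Subtype.ext (funext fun k => funext fun i => ?_)
    show (if k = n + 1 then _ else if k ≤ n then T.1 k i else 0) = T.1 k i
    split_ifs with hk hi hn
    · subst hk; exact (T.2.2.1 i hi).symm
    · subst hk; exact (T.2.1 _ i (by omega)).symm
    · rfl
    · exact (T.2.1 k i (by omega)).symm
  right_inv p := by
    obtain ⟨⟨ν, hν⟩, ⟨T, hT⟩⟩ := p
    refine Sigma.subtype_ext (Subtype.ext (funext fun i => ?_)) (funext fun k => funext fun i => ?_)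
    · show (if n = n + 1 then _ else T n i) = ν i
      rw [if_neg (by omega), hT.2.1 i i.isLt, extendRow_apply _ i.isLt]
    · show (if k ≤ n then (if k = n + 1 then _ else T k i) else 0) = T k i
      split_ifs <;> first | omega | rfl | exact (hT.1 k i (by omega)).symm

/-- The matrix of the `C (μ i + i, j)`. -/
def chooseMatrix (n : ℕ) (μ : ℕ → ℕ) : Matrix (Fin n) (Fin n) ℤ :=
  of fun i j => ((μ i + i).choose j : ℤ)

theorem sum_choose_interlace (a b j i : ℕ) (hab : a ≤ b + 1) :
    ∑ y ∈ Icc a b, ((y + i).choose j : ℤ) =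
      ((b + 1 + i).choose (j + 1) : ℤ) - ((a + i).choose (j + 1) : ℤ) := by
  rw [← Ico_succ_right_eq_Icc, Nat.succ_eq_succ, Nat.succ_eq_add_one,
    ← sum_Ico_sub (fun y => ((y + i).choose (j + 1) : ℤ)) hab]
  refine sum_congr rfl fun y _ => ?_
  rw [show y + 1 + i = y + i + 1 by omega, Nat.choose_succ_succ']
  push_cast
  ring

theorem det_chooseMatrix_succ (n : ℕ) {μ : ℕ → ℕ} (hμ : ∀ i < n, μ i ≤ μ (i + 1)) :
    (chooseMatrix (n + 1) μ).det = ∑ ν ∈ nextRows n μ, (chooseMatrix n (extendRow ν)).det := by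
  let B : Matrix (Fin (n + 1)) (Fin (n + 1)) ℤ := of (Fin.cons (chooseMatrix (n + 1) μ 0)
    fun (i : Fin n) j => ((μ (i + 1) + (i + 1)).choose j : ℤ) - ((μ i + i).choose j : ℤ))
  have hA : (chooseMatrix (n + 1) μ).det = B.det :=
    det_eq_of_forall_row_eq_smul_add_pred (fun _ => 1) (fun j => rfl) fun i j => by
      simp [B, chooseMatrix]
  have hzero : ∀ i : Fin n, B i.succ 0 = 0 := fun i => by simp [B]
  rw [hA, det_succ_column_zero, Fin.sum_univ_succ,
    sum_eq_zero fun i _ => by rw [hzero]; simp, add_zero]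
  have h00 : B 0 0 = 1 := by simp [B, chooseMatrix]
  rw [h00]
  simp only [Fin.val_zero, pow_zero, one_mul, Fin.succAbove_zero]
  have hrows : B.submatrix Fin.succ Fin.succ =
      fun i : Fin n => ∑ y ∈ Icc (μ i) (μ (i + 1)),
        fun j : Fin n => ((y + i).choose j : ℤ) := by
    funext i j
    simp only [submatrix_apply, B, of_apply, Fin.cons_succ, Fin.val_succ, Finset.sum_apply]
    rw [sum_choose_interlace _ _ _ _ ((hμ i i.isLt).trans (Nat.le_succ _))]
    ring_nf
  rw [hrows]
  refine ((detRowAlternating (R := ℤ) (n := Fin n)).toMultilinearMap.map_sum_finset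
    (fun (i : Fin n) (y : ℕ) => fun j : Fin n => ((y + i).choose j : ℤ))
    (fun i => Icc (μ i) (μ (i + 1)))).trans (sum_congr rfl fun ν _ => ?_)
  show det (of fun i j : Fin n => ((ν i + i).choose j : ℤ)) = _
  refine congrArg det (Matrix.ext fun i j => ?_)
  simp [chooseMatrix, extendRow_apply]

/-- **The patterns are counted by the determinant.** -/
theorem card_patternSet : ∀ (n : ℕ) {μ : ℕ → ℕ}, (∀ i, i + 1 < n → μ i ≤ μ (i + 1)) →
    Finite (patternSet n μ) ∧ (Nat.card (patternSet n μ) : ℤ) = (chooseMatrix n μ).det := by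
  intro n
  induction n with
  | zero =>
    intro μ _
    have : patternSet 0 μ = {fun _ _ => 0} := by
      ext T
      constructor
      · rintro ⟨h, -, -⟩
        exact funext fun k => funext fun i => h k i (by omega)
      · rintro rfl
        exact ⟨fun _ _ _ => rfl, fun i hi => by omega, fun k hk => by omega⟩
    rw [this]
    exact ⟨inferInstance, by simp⟩
  | succ n ih =>
    intro μ hμ
    have hν : ∀ ν : nextRows n μ, ∀ i, i + 1 < n → extendRow ν.1 i ≤ extendRow ν.1 (i + 1) :=
      fun ν i hi => by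
        rw [extendRow_apply _ (show i < n by omega), extendRow_apply _ hi]
        exact (mem_nextRows.1 ν.2 ⟨i, by omega⟩).2.trans (mem_nextRows.1 ν.2 ⟨i + 1, hi⟩).1
    have : ∀ ν : nextRows n μ, Finite (patternSet n (extendRow ν.1)) := fun ν => (ih (hν ν)).1
    refine ⟨Finite.of_equiv _ (patternEquiv n μ).symm, ?_⟩
    rw [Nat.card_congr (patternEquiv n μ), Nat.card_sigma,
      det_chooseMatrix_succ n fun i hi => hμ i (by omega), Nat.cast_sum]
    rw [← sum_coe_sort (nextRows n μ) fun ν => (chooseMatrix n (extendRow ν)).det]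
    exact sum_congr rfl fun ν _ => (ih (hν ν)).2

/-- `∏ (x j - x i)` over `i < j < n`. -/
def pairDiff (n : ℕ) (x : ℕ → ℤ) : ℤ := ∏ j ∈ range n, ∏ i ∈ range j, (x j - x i)

theorem det_chooseMatrix (n : ℕ) (μ : ℕ → ℕ) :
    (∏ k ∈ range n, (k.factorial : ℤ)) * (chooseMatrix n μ).det =
      pairDiff n fun i => ((μ i + i : ℕ) : ℤ) := by
  have h := det_eval_matrixOfPolynomials_eq_det_vandermonde
    (fun i : Fin n => ((μ i + i : ℕ) : ℤ)) (fun i => descPochhammer ℤ i)
    (fun i => descPochhammer_natDegree ℤ i) (fun i => monic_descPochhammer ℤ i)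
  rw [← Fin.prod_univ_eq_prod_range (fun k => (k.factorial : ℤ)) n, chooseMatrix,
    ← det_mul_row]
  refine Eq.trans ?_ (h.symm.trans ?_)
  · congr 1
    ext i j
    simp only [of_apply]
    rw [descPochhammer_eval_eq_descFactorial, Nat.descFactorial_eq_factorial_mul_choose]
    push_cast
    rfl
  · rw [det_vandermonde, pairDiff, ← Fin.prod_univ_eq_prod_range
      (fun j => ∏ i ∈ range j, (((μ j + j : ℕ) : ℤ) - ((μ i + i : ℕ) : ℤ))) n,
      prod_comm' (t' := univ) (s' := fun j => Iio j) (h := fun i j => by simp)]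
    refine prod_congr rfl fun j _ => ?_
    rw [← Nat.Iio_eq_range, ← Fin.map_valEmbedding_Iio, prod_map]
    rfl

theorem prod_range_sub (j : ℕ) : ∏ i ∈ range j, ((j : ℤ) - i) = (j.factorial : ℤ) := by
  induction j with
  | zero => simp
  | succ j ih =>
    rw [prod_range_succ', Nat.factorial_succ, Nat.cast_mul, ← ih, Nat.cast_zero, sub_zero,
      mul_comm]
    refine congrArg _ (prod_congr rfl fun i _ => ?_)
    push_cast
    ring

theorem pairDiff_id (n : ℕ) :
    pairDiff n (fun i => (i : ℤ)) = ∏ k ∈ range n, (k.factorial : ℤ) :=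
  prod_congr rfl fun j _ => prod_range_sub j

/-- **The count of patterns.** -/
theorem card_patternSet_mul (n : ℕ) {μ : ℕ → ℕ} (hμ : ∀ i, i + 1 < n → μ i ≤ μ (i + 1)) :
    (Nat.card (patternSet n μ) : ℤ) * pairDiff n (fun i => (i : ℤ)) =
      pairDiff n fun i => ((μ i + i : ℕ) : ℤ) := by
  rw [(card_patternSet n hμ).2, pairDiff_id, mul_comm, det_chooseMatrix]

end FA.MacMahonBox
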